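import Fermat.Agent.SchurHorn.Majorisation

/-!
# Horn's theorem

Induction on the size: a rotation in the plane of two values, one above and one next below, brings
the largest wanted entry to the diagonal and leaves a majorised problem for the rest.
-/

set_option autoImplicit false

noncomputable section

namespace FA.SchurHorn

open Finset

universe u

/-- An orthogonal matrix which makes `d` the diagonal from the values `l`. -/
def Realised {n : Type*} [Fintype n] [DecidableEq n] (d l : n → ℝ) : Prop :=
  ∃ Q : n → n → ℝ, (∀ i j, ∑ x, Q i x * Q j x = if i = j then 1 else 0) ∧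
    ∀ i, ∑ x, l x * Q i x ^ 2 = d i

variable {n : Type u} [Fintype n] [DecidableEq n]

theorem Realised.of_comp {d l : n → ℝ} (σ : Equiv.Perm n) (h : Realised d (l ∘ σ)) :
    Realised d l := by
  obtain ⟨Q, h1, h2⟩ := h
  refine ⟨fun i x => Q i (σ.symm x), fun i j => ?_, fun i => ?_⟩
  · rw [Equiv.sum_comp σ.symm fun x => Q i x * Q j x]
    exact h1 i j
  · rw [← h2 i, ← Equiv.sum_comp σ fun x => l x * Q i (σ.symm x) ^ 2]
    simp

/-- The bilinear form on combinations of an orthogonal family. -/
theorem sum_comb {p : n} (w : n → ℝ) (μ : {x // x ≠ p} → ℝ) (R : {x // x ≠ p} → n → ℝ)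
    (hR : ∀ s t, ∑ x, w x * (R s x * R t x) = if s = t then μ s else 0)
    (a b : {x // x ≠ p} → ℝ) :
    ∑ x, w x * ((∑ s, a s * R s x) * ∑ t, b t * R t x) = ∑ s, μ s * (a s * b s) := by
  calc ∑ x, w x * ((∑ s, a s * R s x) * ∑ t, b t * R t x)
      = ∑ x, ∑ s, ∑ t, a s * b t * (w x * (R s x * R t x)) := by
        refine sum_congr rfl fun x _ => ?_
        rw [sum_mul_sum, mul_sum]
        refine sum_congr rfl fun s _ => ?_
        rw [mul_sum]
        exact sum_congr rfl fun t _ => by ring
    _ = ∑ s, ∑ t, a s * b t * ∑ x, w x * (R s x * R t x) := by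
        rw [sum_comm]
        refine sum_congr rfl fun s _ => ?_
        rw [sum_comm]
        exact sum_congr rfl fun t _ => (mul_sum _ _ _).symm
    _ = ∑ s, μ s * (a s * b s) := by
        simp only [hR, mul_ite, mul_zero, sum_ite_eq, mem_univ, if_true]
        exact sum_congr rfl fun s _ => mul_comm _ _

/-- One rotation and a solution for the rest. -/
theorem realised_step {d l : n → ℝ} {p k : n} (hk : k ≠ p) (hlo : l k ≤ d p) (hhi : d p ≤ l p)
    (h : Realised (fun x : {x // x ≠ p} => d x.1)
      (fun x : {x // x ≠ p} => if x.1 = k then l p + l k - d p else l x.1)) :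
    Realised d l := by
  obtain ⟨t, ht0, ht1, htd⟩ : ∃ t, 0 ≤ t ∧ t ≤ 1 ∧ t * l p + (1 - t) * l k = d p := by
    by_cases he : l p = l k
    · exact ⟨1, zero_le_one, le_rfl, by linarith⟩
    · have hlt : 0 < l p - l k := sub_pos.2 (lt_of_le_of_ne (hlo.trans hhi) (Ne.symm he))
      refine ⟨(d p - l k) / (l p - l k), div_nonneg (by linarith) hlt.le,
        (div_le_one hlt).2 (by linarith), ?_⟩
      field_simp
      ring
  set c := Real.sqrt t with hc
  set s := Real.sqrt (1 - t) with hs
  have hc2 : c ^ 2 = t := Real.sq_sqrt ht0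
  have hs2 : s ^ 2 = 1 - t := Real.sq_sqrt (by linarith)
  obtain ⟨Q, hQ1, hQ2⟩ := h
  -- the rows of the rotation
  let R : {x // x ≠ p} → n → ℝ := fun i x =>
    if i.1 = k then (if x = p then -s else if x = k then c else 0) else if x = i.1 then 1 else 0
  let r : n → ℝ := fun x => if x = p then c else if x = k then s else 0
  have hsum : ∀ (f : n → ℝ), (∀ x, x ≠ p → x ≠ k → f x = 0) → ∑ x, f x = f p + f k := by
    intro f hf
    rw [← sum_pair hk.symm]
    refine (sum_subset (subset_univ _) fun x _ hx => ?_).symm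
    simp only [mem_insert, mem_singleton, not_or] at hx
    exact hf x hx.1 hx.2
  have hRR : ∀ (w : n → ℝ) (i j : {x // x ≠ p}), ∑ x, w x * (R i x * R j x) =
      if i = j then (if i.1 = k then w p * s ^ 2 + w k * c ^ 2 else w i.1) else 0 := by
    intro w i j
    by_cases hi : i.1 = k
    · by_cases hj : j.1 = k
      · rw [hsum _ fun x h1 h2 => by simp [R, hi, h1, h2], if_pos (Subtype.ext (hi.trans hj.symm)),
          if_pos hi]
        simp [R, hi, hj, hk, sq]
      · rw [sum_eq_single_of_mem j.1 (mem_univ _) fun x _ hx => by simp [R, hj, hx],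
          if_neg fun (e : i = j) => hj (e ▸ hi)]
        simp [R, hi, hj, j.2]
    · rw [sum_eq_single_of_mem i.1 (mem_univ _) fun x _ hx => by simp [R, hi, hx]]
      by_cases hj : j.1 = k
      · rw [if_neg fun (e : i = j) => hi (e ▸ hj)]
        simp [R, hi, hj, i.2]
      · by_cases hij : i = j
        · subst hij
          simp [R, hi]
        · rw [if_neg hij]
          simp [R, hi, hj, Subtype.coe_injective.ne hij]
  have hrR : ∀ i, ∑ x, r x * R i x = 0 := by
    intro i
    by_cases hi : i.1 = k
    · rw [hsum _ fun x h1 h2 => by simp [r, h1, h2]]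
      simp [R, r, hi, hk]
      ring
    · rw [sum_eq_single_of_mem i.1 (mem_univ _) fun x _ hx => by simp [R, hi, hx]]
      simp [r, hi, i.2]
  refine ⟨fun i x => if h : i = p then r x else ∑ a, Q ⟨i, h⟩ a * R a x,
    fun i j => ?_, fun i => ?_⟩
  · by_cases hi : i = p <;> by_cases hj : j = p
    · subst hi hj
      simp only [dif_pos, if_true]
      rw [hsum _ fun x h1 h2 => by simp [r, h1, h2]]
      simp [r, hk, ← sq, hc2, hs2]
    · subst hi
      simp only [dif_pos, dif_neg hj, mul_sum, if_neg (Ne.symm hj)]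
      rw [sum_comm]
      exact sum_eq_zero fun a _ => by
        simp only [mul_left_comm _ (Q _ a), ← mul_sum, hrR, mul_zero]
    · subst hj
      simp only [dif_pos, dif_neg hi, sum_mul, if_neg hi]
      rw [sum_comm]
      exact sum_eq_zero fun a _ => by
        simp only [mul_assoc, ← mul_sum, mul_comm (R a _) (r _), hrR, mul_zero]
    · simp only [dif_neg hi, dif_neg hj]
      have h1 := sum_comb (fun _ => 1) (fun _ => 1) R (fun a b => by
        rw [hRR (fun _ => 1) a b]
        simp only [one_mul, hs2, hc2, sub_add_cancel, ite_self]) (Q ⟨i, hi⟩) (Q ⟨j, hj⟩)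
      simp only [one_mul] at h1
      rw [h1, hQ1]
      simp
  · by_cases hi : i = p
    · subst hi
      simp only [dif_pos]
      rw [hsum _ fun x h1 h2 => by simp [r, h1, h2]]
      simp only [r, if_true, if_neg hk, hc2, hs2]
      linarith
    · simp only [dif_neg hi]
      have h1 := sum_comb l (fun a : {x // x ≠ p} => if a.1 = k then l p + l k - d p else l a.1) R
        (fun a b => by
          rw [hRR l a b, hs2, hc2, show l p * (1 - t) + l k * t = l p + l k - d p by linarith])
        (Q ⟨i, hi⟩) (Q ⟨i, hi⟩)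
      simp only [← sq] at h1
      rw [h1, hQ2 ⟨i, hi⟩]

/-- The majorised problem which remains after the rotation. -/
theorem majorised_step {d l : n → ℝ} (h : Majorised d l) {p k : n} (hk : k ≠ p)
    (hd : ∀ i, d i ≤ d p) (hlp : d p ≤ l p)
    (hmax : ∀ i, l i < d p → l i ≤ l k) :
    Majorised (fun x : {x // x ≠ p} => d x.1)
      (fun x : {x // x ≠ p} => if x.1 = k then l p + l k - d p else l x.1) := by
  set μ : n → ℝ := fun x => if x = k then l p + l k - d p else l x with hμ
  have hsub : ∀ T : Finset n, p ∉ T → ∃ T' : Finset {x // x ≠ p}, #T' = #T ∧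
      ∑ x ∈ T', μ x.1 = ∑ x ∈ T, μ x := fun T hT =>
    ⟨T.subtype _, by rw [card_subtype, filter_true_of_mem fun x hx => ne_of_mem_of_not_mem hx hT],
      by rw [sum_subtype_eq_sum_filter, filter_true_of_mem fun x hx => ne_of_mem_of_not_mem hx hT]⟩
  constructor
  · intro S
    set S' := S.map (Function.Embedding.subtype _) with hS'
    have hpS : p ∉ S' := by simp [hS']
    have hcard : #S' = #S := card_map _
    rw [show ∑ x ∈ S, d x.1 = ∑ x ∈ S', d x by rw [hS', sum_map]; rfl, ← hcard]
    suffices ∃ T : Finset n, p ∉ T ∧ #T = #S' ∧ ∑ x ∈ S', d x ≤ ∑ x ∈ T, μ x by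
      obtain ⟨T, hpT, hT, hle⟩ := this
      obtain ⟨T', hT', hsum⟩ := hsub T hpT
      exact ⟨T', hT'.trans hT, by rw [← hsum] at hle; exact hle⟩
    set J := univ.filter fun x => d p ≤ l x
    by_cases hm : #S' + 1 ≤ #J
    · obtain ⟨T, hTJ, hT⟩ := exists_subset_card_eq (s := J.erase p) (n := #S') (by
        rw [card_erase_of_mem (by simp [J, hlp])]; omega)
      refine ⟨T, fun hp => notMem_erase p J (hTJ hp), hT, ?_⟩
      calc ∑ x ∈ S', d x ≤ #S' • d p := sum_le_card_nsmul _ _ _ fun x _ => hd x
        _ = #T • d p := by rw [hT]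
        _ ≤ ∑ x ∈ T, μ x := card_nsmul_le_sum _ _ _ fun x hx => by
          have h1 : d p ≤ l x := (mem_filter.1 (mem_of_mem_erase (hTJ hx))).2
          simp only [hμ]
          split_ifs with hxk
          · subst hxk; linarith
          · exact h1
    · have hlt : #S' < Fintype.card n := card_lt_univ_of_notMem hpS
      obtain ⟨U, hU, hUtop⟩ := exists_top l (m := #S' + 1) hlt
      obtain ⟨T₀, hT₀, hle⟩ := h.1 (insert p S')
      rw [card_insert_of_notMem hpS] at hT₀
      rw [sum_insert hpS] at hle
      have h1 : ∑ x ∈ T₀, l x ≤ ∑ x ∈ U, l x := sum_le_top hUtop (by omega)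
      obtain ⟨t₀, ht₀U, ht₀J⟩ : ∃ t ∈ U, l t < d p := by
        by_contra hcon
        push Not at hcon
        have : U ⊆ J := fun x hx => mem_filter.2 ⟨mem_univ _, hcon x hx⟩
        have := card_le_card this
        omega
      have hpU : p ∈ U := by
        by_contra hp
        linarith [hUtop t₀ ht₀U p hp]
      obtain ⟨V, hV, hkV, hpV, hUV⟩ : ∃ V : Finset n, #V = #S' + 1 ∧ k ∈ V ∧ p ∈ V ∧
          ∑ x ∈ U, l x ≤ ∑ x ∈ V, l x := by
        by_cases hkU : k ∈ U
        · exact ⟨U, hU, hkU, hpU, le_rfl⟩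
        · have hk' : k ∉ U.erase t₀ := fun h => hkU (mem_of_mem_erase h)
          have hpt : p ≠ t₀ := fun e => by rw [← e] at ht₀J; linarith
          refine ⟨insert k (U.erase t₀), ?_, mem_insert_self _ _,
            mem_insert_of_mem (mem_erase.2 ⟨hpt, hpU⟩), ?_⟩
          · rw [card_insert_of_notMem hk', card_erase_add_one ht₀U, hU]
          · rw [sum_insert hk', ← add_sum_erase _ _ ht₀U]
            linarith [hmax t₀ ht₀J]
      refine ⟨V.erase p, notMem_erase _ _, by rw [card_erase_of_mem hpV, hV]; rfl, ?_⟩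
      have hkV' : k ∈ V.erase p := mem_erase.2 ⟨hk, hkV⟩
      have h2 : ∑ x ∈ V.erase p, μ x = ∑ x ∈ V, l x - d p := by
        rw [← add_sum_erase _ _ hpV, ← add_sum_erase _ _ hkV', ← add_sum_erase _ l hkV',
          sum_congr rfl fun x hx => show μ x = l x from if_neg (ne_of_mem_erase hx)]
        simp only [hμ, if_true]
        ring
      linarith
  · have h1 : ∀ f : n → ℝ, ∑ x : {x // x ≠ p}, f x.1 = ∑ x ∈ univ.erase p, f x := fun f =>
      (sum_subtype _ (fun x => by simp) f).symm
    rw [h1 d, h1 μ]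
    have h2 := h.2
    rw [← add_sum_erase _ _ (mem_univ p), ← add_sum_erase _ l (mem_univ p)] at h2
    have hk' : k ∈ (univ : Finset n).erase p := mem_erase.2 ⟨hk, mem_univ _⟩
    rw [← add_sum_erase _ μ hk', sum_congr rfl fun x hx =>
      show μ x = l x from if_neg (ne_of_mem_erase hx)]
    rw [← add_sum_erase _ l hk'] at h2
    simp only [hμ, if_true]
    linarith

/-- Horn's theorem. -/
theorem realised_of_majorised : ∀ (N : ℕ) (n : Type u) [Fintype n] [DecidableEq n],
    Fintype.card n = N → ∀ d l : n → ℝ, Majorised d l → Realised d l := by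
  intro N
  induction N with
  | zero =>
    intro n _ _ hn d l _
    have := Fintype.card_eq_zero_iff.1 hn
    exact ⟨fun i => isEmptyElim i, fun i => isEmptyElim i, fun i => isEmptyElim i⟩
  | succ N ih =>
    intro n _ _ hn d l h
    have : Nonempty n := Fintype.card_pos_iff.1 (by omega)
    obtain ⟨p, -, hd⟩ := exists_max_image univ d univ_nonempty
    obtain ⟨j, hj⟩ : ∃ j, d p ≤ l j := by
      obtain ⟨T, hT, hle⟩ := h.1 {p}
      rw [card_singleton] at hT
      obtain ⟨a, rfl⟩ := card_eq_one.1 hT
      rw [sum_singleton, sum_singleton] at hle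
      exact ⟨a, hle⟩
    set σ := Equiv.swap p j
    refine Realised.of_comp σ ?_
    have h' := h.comp_perm σ
    set l' := l ∘ σ
    have hlp : d p ≤ l' p := by simpa [l', σ] using hj
    rcases Nat.eq_zero_or_pos N with rfl | hN
    · have huniq : ∀ x, x = p := fun x =>
        Fintype.card_le_one_iff.1 (by omega) x p
      have huniv : (univ : Finset n) = {p} := by ext x; simp [huniq x]
      refine ⟨fun _ _ => 1, fun a b => by simp [huniv, huniq a, huniq b], fun i => ?_⟩
      have h2 := h'.2
      rw [huniv, sum_singleton, sum_singleton] at h2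
      simp [huniv, huniq i, h2]
    obtain ⟨k, hk, hlo, hmax⟩ :
        ∃ k, k ≠ p ∧ l' k ≤ d p ∧ ∀ i, l' i < d p → l' i ≤ l' k := by
      by_cases hK : ∃ i, l' i < d p
      · obtain ⟨k, hk, hmax⟩ := exists_max_image (univ.filter fun i => l' i < d p) l' (by
          obtain ⟨i, hi⟩ := hK
          exact ⟨i, mem_filter.2 ⟨mem_univ _, hi⟩⟩)
        have hk' := (mem_filter.1 hk).2
        exact ⟨k, fun e => by rw [e] at hk'; linarith, hk'.le,
          fun i hi => hmax i (mem_filter.2 ⟨mem_univ _, hi⟩)⟩
      · push Not at hK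
        obtain ⟨k, hk⟩ := Fintype.exists_ne_of_one_lt_card (by omega) p
        have h1 : ∀ i ∈ (univ : Finset n), d i ≤ l' i := fun i hi => (hd i hi).trans (hK i)
        have h2 := (sum_eq_sum_iff_of_le h1).1 h'.2
        exact ⟨k, hk, by rw [← h2 k (mem_univ _)]; exact hd k (mem_univ _),
          fun i hi => absurd hi (hK i).not_gt⟩
    refine realised_step hk hlo hlp (ih _ ?_ _ _
      (majorised_step h' hk (fun i => hd i (mem_univ _)) hlp hmax))
    rw [Fintype.card_subtype_compl, Fintype.card_subtype_eq, hn, Nat.add_sub_cancel]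

end FA.SchurHorn
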