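import Mathlib

/-!
# Majorisation

A sum of values with weights in `[0, 1]` of total weight `m` is at most a sum of `m` of the values.
-/

set_option autoImplicit false

noncomputable section

namespace FA.SchurHorn

open Finset

variable {n : Type*} [Fintype n]

/-- `d` is majorised by `l`: each sum of values of `d` is at most a sum of as many values of `l`,
with equality for the total. -/
def Majorised (d l : n → ℝ) : Prop :=
  (∀ S : Finset n, ∃ T : Finset n, #T = #S ∧ ∑ i ∈ S, d i ≤ ∑ i ∈ T, l i) ∧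
    ∑ i, d i = ∑ i, l i

theorem exists_top [DecidableEq n] (f : n → ℝ) {m : ℕ} (hm : m ≤ Fintype.card n) :
    ∃ T : Finset n, #T = m ∧ ∀ j ∈ T, ∀ i ∉ T, f i ≤ f j := by
  obtain ⟨T, hT, hmax⟩ := exists_max_image ((univ : Finset n).powersetCard m)
    (fun T => ∑ i ∈ T, f i) (powersetCard_nonempty.2 (by simpa using hm))
  rw [mem_powersetCard] at hT
  refine ⟨T, hT.2, fun j hj i hi => ?_⟩
  have hi' : i ∉ T.erase j := fun h => hi (mem_of_mem_erase h)
  have h := hmax (insert i (T.erase j)) (mem_powersetCard.2 ⟨subset_univ _, by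
    rw [card_insert_of_notMem hi', card_erase_add_one hj, hT.2]⟩)
  rw [sum_insert hi', ← add_sum_erase _ _ hj] at h
  linarith

/-- Sums with weights. -/
theorem sum_weight_le [DecidableEq n] {f w : n → ℝ} {T : Finset n}
    (hT : ∀ j ∈ T, ∀ i ∉ T, f i ≤ f j) (h0 : ∀ i, 0 ≤ w i) (h1 : ∀ i, w i ≤ 1)
    (hw : ∑ i, w i = (#T : ℕ)) : ∑ i, w i * f i ≤ ∑ i ∈ T, f i := by
  obtain ⟨c, hc, hc'⟩ : ∃ c, (∀ j ∈ T, c ≤ f j) ∧ ∀ i ∉ T, f i ≤ c := by
    rcases T.eq_empty_or_nonempty with rfl | hne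
    · obtain ⟨c, hc⟩ := (Set.finite_range f).bddAbove
      exact ⟨c, fun j hj => absurd hj (notMem_empty j), fun i _ => hc ⟨i, rfl⟩⟩
    · obtain ⟨j, hj, hmin⟩ := exists_min_image T f hne
      exact ⟨f j, hmin, fun i hi => hT j hj i hi⟩
  have h2 : ∑ i, w i * (f i - c) ≤ ∑ i, if i ∈ T then f i - c else 0 := by
    refine sum_le_sum fun i _ => ?_
    split_ifs with hi
    · nlinarith [hc i hi, h1 i]
    · nlinarith [hc' i hi, h0 i]
  rw [sum_ite_mem, univ_inter] at h2
  simp only [mul_sub, sum_sub_distrib, ← sum_mul, hw, sum_const, nsmul_eq_mul] at h2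
  linarith

/-- The largest sum dominates. -/
theorem sum_le_top [DecidableEq n] {f : n → ℝ} {T U : Finset n}
    (hT : ∀ j ∈ T, ∀ i ∉ T, f i ≤ f j) (h : #U = #T) : ∑ i ∈ U, f i ≤ ∑ i ∈ T, f i := by
  have := sum_weight_le (w := fun i => if i ∈ U then 1 else 0) hT
    (fun i => by split_ifs <;> norm_num) (fun i => by split_ifs <;> norm_num)
    (by rw [sum_boole]; simp [h])
  simpa [ite_mul, sum_ite_mem] using this

theorem Majorised.comp_perm {d l : n → ℝ} (h : Majorised d l) (σ : Equiv.Perm n) :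
    Majorised d (l ∘ σ) := by
  classical
  refine ⟨fun S => ?_, h.2.trans (Equiv.sum_comp σ l).symm⟩
  obtain ⟨T, hT, hle⟩ := h.1 S
  refine ⟨T.image σ.symm, by rw [card_image_of_injective _ σ.symm.injective, hT], hle.trans ?_⟩
  rw [sum_image σ.symm.injective.injOn]
  simp

end FA.SchurHorn
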