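import Fermat.Agent.SchurHorn.Horn

/-!
# Diagonals of Hermitian matrices

Schur's theorem by the unitary matrix of eigenvectors, and the translation of Horn's theorem.
-/

set_option autoImplicit false

noncomputable section

namespace FA.SchurHorn

open Finset Matrix Polynomial
open scoped ComplexConjugate

variable {n : Type*} [Fintype n] [DecidableEq n]

/-- Schur's theorem. -/
theorem majorised_diag {A : Matrix n n ℂ} (hA : A.IsHermitian) :
    Majorised (fun i => (A i i).re) hA.eigenvalues := by
  set U : Matrix n n ℂ := (hA.eigenvectorUnitary : Matrix n n ℂ) with hU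
  have hdiag : ∀ i, (A i i).re = ∑ j, Complex.normSq (U i j) * hA.eigenvalues j := by
    intro i
    have h : A i i = ∑ j, U i j * (hA.eigenvalues j : ℂ) * conj (U i j) := by
      conv_lhs => rw [hA.spectral_theorem, Unitary.conjStarAlgAut_apply]
      rw [Matrix.mul_apply]
      simp [Matrix.mul_diagonal, Matrix.star_apply, hU]
    rw [h, Complex.re_sum]
    refine sum_congr rfl fun j _ => ?_
    rw [mul_right_comm, Complex.mul_conj, ← Complex.ofReal_mul, Complex.ofReal_re]
  have hrow : ∀ i, ∑ j, Complex.normSq (U i j) = 1 := by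
    intro i
    have h : (U * star U) i i = 1 := by
      rw [Matrix.mem_unitaryGroup_iff.1 hA.eigenvectorUnitary.2, Matrix.one_apply_eq]
    simp only [Matrix.mul_apply, Matrix.star_apply, RCLike.star_def, Complex.mul_conj] at h
    exact_mod_cast h
  have hcol : ∀ j, ∑ i, Complex.normSq (U i j) = 1 := by
    intro j
    have h : (star U * U) j j = 1 := by
      rw [Matrix.mem_unitaryGroup_iff'.1 hA.eigenvectorUnitary.2, Matrix.one_apply_eq]
    simp only [Matrix.mul_apply, Matrix.star_apply, RCLike.star_def,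
      ← Complex.normSq_eq_conj_mul_self] at h
    exact_mod_cast h
  refine ⟨fun S => ?_, ?_⟩
  · obtain ⟨T, hT, htop⟩ := exists_top hA.eigenvalues (card_le_univ S)
    refine ⟨T, hT, ?_⟩
    rw [sum_congr rfl fun i _ => hdiag i, sum_comm]
    simp only [← sum_mul]
    refine sum_weight_le htop (fun j => sum_nonneg fun i _ => Complex.normSq_nonneg _)
      (fun j => ?_) ?_
    · rw [← hcol j]
      exact sum_le_sum_of_subset_of_nonneg (subset_univ S) fun i _ _ => Complex.normSq_nonneg _
    · rw [sum_comm, sum_congr rfl fun i _ => hrow i, sum_const, nsmul_one, hT]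
  · simp only [hdiag]
    rw [sum_comm]
    exact sum_congr rfl fun j _ => by rw [← sum_mul, hcol, one_mul]

omit [DecidableEq n] in
/-- Families with the same values counted with multiplicity differ by a permutation. -/
theorem exists_perm_of_map_eq {β : Type*} [DecidableEq β] (f g : n → β)
    (h : (univ : Finset n).val.map f = (univ : Finset n).val.map g) :
    ∃ σ : Equiv.Perm n, f = g ∘ σ := by
  classical
  have he : ∀ b, Nonempty ({i // f i = b} ≃ {i // g i = b}) := fun b => by
    refine ⟨Fintype.equivOfCardEq ?_⟩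
    rw [Fintype.card_subtype, Fintype.card_subtype]
    have := congrArg (Multiset.count b) h
    simp only [Multiset.count_map] at this
    simpa [Finset.card_def, Finset.filter_val, eq_comm] using this
  exact ⟨Equiv.ofFiberEquiv fun b => (he b).some,
    funext fun i => (Equiv.ofFiberEquiv_map (fun b => (he b).some) i).symm⟩

theorem majorised_of_charpoly {A : Matrix n n ℂ} (hA : A.IsHermitian) {d l : n → ℝ}
    (hd : ∀ i, A i i = d i) (hl : A.charpoly = ∏ i, (X - C (l i : ℂ))) : Majorised d l := by
  have h := congrArg Polynomial.roots (hA.charpoly_eq.symm.trans hl)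
  have e : ∀ f : n → ℂ, (∏ i, (X - C (f i))).roots = univ.val.map f := fun f => by
    refine Eq.trans (congrArg Polynomial.roots ?_) (roots_multiset_prod_X_sub_C _)
    rw [Multiset.map_map]
    rfl
  rw [show (∏ i, (X - C (RCLike.ofReal (hA.eigenvalues i) : ℂ))) =
    ∏ i, (X - C (hA.eigenvalues i : ℂ)) from rfl, e, e] at h
  obtain ⟨σ, hσ⟩ := exists_perm_of_map_eq _ _ h.symm
  have hl' : l = hA.eigenvalues ∘ σ := funext fun i => Complex.ofReal_injective (congrFun hσ i)
  rw [hl']
  have := (majorised_diag hA).comp_perm σ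
  simpa [hd] using this

theorem exists_symm {d l : n → ℝ} (h : Majorised d l) :
    ∃ A : Matrix n n ℝ, A.IsSymm ∧ (∀ i, A i i = d i) ∧ A.charpoly = ∏ i, (X - C (l i)) := by
  obtain ⟨Q, hQ, hd⟩ := realised_of_majorised _ n rfl d l h
  set P : Matrix n n ℝ := Matrix.of Q with hP
  have h1 : P * Pᵀ = 1 := by
    ext i j
    simp [Matrix.mul_apply, Matrix.one_apply, hQ, hP]
  refine ⟨P * diagonal l * Pᵀ, ?_, fun i => ?_, ?_⟩
  · rw [Matrix.IsSymm, Matrix.transpose_mul, Matrix.transpose_mul, Matrix.transpose_transpose,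
      Matrix.diagonal_transpose, Matrix.mul_assoc]
  · rw [← hd i, Matrix.mul_apply]
    exact sum_congr rfl fun x _ => by simp [Matrix.mul_diagonal, hP]; ring
  · rw [Matrix.charpoly_mul_comm, ← Matrix.mul_assoc, mul_eq_one_comm.1 h1, Matrix.one_mul,
      Matrix.charpoly_diagonal]

theorem exists_hermitian {d l : n → ℝ} (h : Majorised d l) :
    ∃ A : Matrix n n ℂ, A.IsHermitian ∧ (∀ i, A i i = d i) ∧
      A.charpoly = ∏ i, (X - C (l i : ℂ)) := by
  obtain ⟨A, hs, hd, hl⟩ := exists_symm h
  refine ⟨A.map Complex.ofRealHom, ?_, fun i => by simp [hd], ?_⟩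
  · ext i j
    simp [hs.apply i j]
  · rw [Matrix.charpoly_map, hl, Polynomial.map_prod]
    simp

theorem majorised_of_charpoly_real {A : Matrix n n ℝ} (hA : A.IsSymm) {d l : n → ℝ}
    (hd : ∀ i, A i i = d i) (hl : A.charpoly = ∏ i, (X - C (l i))) : Majorised d l := by
  refine majorised_of_charpoly (A := A.map Complex.ofRealHom) ?_ (fun i => by simp [hd]) ?_
  · ext i j
    simp [hA.apply i j]
  · rw [Matrix.charpoly_map, hl, Polynomial.map_prod]
    simp

theorem majorised_iff_sorted {m : ℕ} {d l : Fin m → ℝ} (hd : Antitone d) (hl : Antitone l) :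
    Majorised d l ↔ (∀ k ≤ m, ∑ i ∈ univ.filter (fun i : Fin m => (i : ℕ) < k), d i ≤
      ∑ i ∈ univ.filter (fun i : Fin m => (i : ℕ) < k), l i) ∧ ∑ i, d i = ∑ i, l i := by
  have htop : ∀ (f : Fin m → ℝ), Antitone f → ∀ k : ℕ,
      ∀ j ∈ univ.filter (fun i : Fin m => (i : ℕ) < k),
        ∀ i ∉ univ.filter (fun i : Fin m => (i : ℕ) < k), f i ≤ f j := fun f hf k j hj i hi => by
    simp only [mem_filter, mem_univ, true_and, not_lt] at hj hi
    exact hf (by omega : (j : ℕ) ≤ i)
  constructor
  · rintro ⟨h1, h2⟩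
    refine ⟨fun k _ => ?_, h2⟩
    obtain ⟨T, hT, hle⟩ := h1 (univ.filter fun i : Fin m => (i : ℕ) < k)
    exact hle.trans (sum_le_top (htop l hl k) hT)
  · rintro ⟨h1, h2⟩
    refine ⟨fun S => ⟨univ.filter fun i : Fin m => (i : ℕ) < #S, ?_, ?_⟩, h2⟩
    · simpa [Fin.card_filter_val_lt] using card_le_univ S
    · refine le_trans (sum_le_top (htop d hd #S) ?_) (h1 _ (by simpa using card_le_univ S))
      rw [Fin.card_filter_val_lt]
      simpa using card_le_univ S

end FA.SchurHorn
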